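/-
MLT / [L1] case (C), ORDINARY case (helper9): fork of `Lib/Ihara/Nf/FieldsChi.lean` with the condition at `p`
`IsOrdinaryAt p` (`p ∤ N`, S32) replaced by `IsOrdinaryAt p` (`p ∥ N` and `ρbar` ordinary at `p`, S33).  Generated by a
rename script from the frozen file: only the declarations depending on the condition at `p` are repeated,
with the prefix `ih`/`Ih` replaced by `kh`/`Kh`.
-/
import Mathlib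
import Fermat.Agent.Lib.Ihara.Nf.Fields
import Fermat.Agent.Lib.Ihara.E.Main
import Fermat.Agent.Lib.MLT.CO.I.E.Main
import Fermat.Agent.Lib.Ihara.Pc.Main
import Fermat.Agent.Lib.MLT.CO.I.Glue.Rep
import Fermat.Agent.Lib.MLT.CO.I.Img.Rep
import Fermat.Agent.Lib.Ihara.Nf.FieldsChi

set_option autoImplicit false
set_option linter.unusedSectionVars false
set_option linter.unusedVariables false
set_option linter.style.haveILetI false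

open scoped TensorProduct
open IsLocalRing Matrix MatrixGroups CongruenceSubgroup Fermat.Agent.T1 Fermat.Agent.T2
  Fermat.Agent.T4 ModularCurve Fermat.Agent.S24Lib ModularCurve.Period Fermat.Agent.S53Lib
  Fermat.Agent.DS Fermat.Agent.T1G Fermat.Agent.TW Polynomial

namespace Fermat.Agent.Ihara

open Fermat.Agent.Alpha (AlpqPoint)

local notation "Qb" => AlgebraicClosure ℚ
local notation "GQ" => (AlgebraicClosure ℚ ≃ₐ[ℚ] AlgebraicClosure ℚ)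

section FieldsChi

variable (O : Type) [CommRing O] [IsDomain O] [IsDiscreteValuationRing O] [CharZero O]
  [IsAdicComplete (IsLocalRing.maximalIdeal O) O] [Finite (ResidueField O)]
  (M : ℕ) [NeZero M] (hM : 6 ≤ M)
  (H : Subgroup (ZMod M)ˣ) (Ps : Set ℕ) (θ₀ : ℕ → O)
  (p : ℕ) [Fact p.Prime]
  (Δ₁ : Subgroup ((ZMod M)ˣ ⧸ H)) (χ : Δ₁ →* O)
  {N' : ℕ} [NeZero N'] (S : Finset ℕ) (z : ℕ → (ZMod M)ˣ)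
  (ρbar : ResidualGaloisRep (ResidueField O))
  (b : Module.Basis (Fin 2) (ResidueField O) ρbar.V) (Smin : Finset ℕ)
  [Module.IsTorsionFree O (IhmChiPart O M hM H Ps θ₀ Δ₁ χ)]
  (a : CuspForm.heckeAlgebra N' 2 (↑S : Set ℕ) →+* Module.End O (IhmChiPart O M hM H Ps θ₀ Δ₁ χ))
  (θ' : CuspForm.heckeAlgebra N' 2 (↑S : Set ℕ) →+* ResidueField O)
  (hpart : ihdPart O a θ' = ⊤) [Nontrivial ↥(ihdPart O a θ')]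
  (rA : GQ →* Matrix (Fin 2) (Fin 2) (IhdImg O a θ')) (hcts : MatCts (IhdImg O a θ') rA)

variable (hD : KheDatum O M hM H Ps θ₀ p Δ₁ χ S z ρbar b Smin a θ' hpart rA hcts)
  (hpS : p ∈ S) (hNS : ∀ q : ℕ, q.Prime → q ∣ N' → q ∈ S)

include hD hpS hNS in
theorem khn_chi_frob (ℓ : ℕ) (hℓ : ℓ.Prime) (hℓS : ℓ ∉ S) (Pl : ValuationSubring Qb)
    (hPl : Pl.LiesOverPrime ℓ) (φ : GQ) (hφ : Pl.IsFrobeniusAt φ ℓ) :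
    (rA φ).trace = ihnTau O M hM H Ps θ₀ Δ₁ χ S a θ' ℓ ∧ (rA φ).det = (ℓ : IhdImg O a θ') := by
  obtain ⟨-, -, -, -, -, -, -, -, h9, h10⟩ := hD
  have hℓN : ¬ ℓ ∣ N' := fun h => hℓS (hNS ℓ hℓ h)
  have hℓS' : ℓ ∉ (↑S : Set ℕ) := by simpa using hℓS
  have hℓp : ℓ ≠ p := fun h => hℓS (h ▸ hpS)
  refine ⟨?_, (h10 ℓ hℓ hℓp Pl hPl).1 φ hφ⟩
  apply ihiAct_injective O a θ' hpart
  rw [h9 ℓ hℓ hℓN hℓS' Pl hPl φ hφ, ihnTau_eq O M hM H Ps θ₀ Δ₁ χ S a θ' ℓ hℓ hℓN hℓS', ihiAct_pi]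

include hD hNS in
theorem khn_chi_tau (ℓ : ℕ) (hℓ : ℓ.Prime) (hℓS : ℓ ∉ S) :
    ihiAct O a θ' hpart (ihnTau O M hM H Ps θ₀ Δ₁ χ S a θ' ℓ) =
      ihmChiOp O M hM H Ps θ₀ Δ₁ χ ℓ *
        ihmChiDia O M hM H Ps θ₀ Δ₁ χ ((z ℓ : (ZMod M)ˣ) : (ZMod M)ˣ ⧸ H) := by
  obtain ⟨h1, -⟩ := hD
  have hℓN : ¬ ℓ ∣ N' := fun h => hℓS (hNS ℓ hℓ h)
  have hℓS' : ℓ ∉ (↑S : Set ℕ) := by simpa using hℓS
  rw [ihnTau_eq O M hM H Ps θ₀ Δ₁ χ S a θ' ℓ hℓ hℓN hℓS', ihiAct_pi, h1 ℓ hℓ hℓN hℓS']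

end FieldsChi

section Blocks

variable (O : Type) [CommRing O] [IsDomain O] [IsDiscreteValuationRing O] [CharZero O]
  [IsAdicComplete (IsLocalRing.maximalIdeal O) O] [Finite (ResidueField O)]
  (M : ℕ) [NeZero M] (hM : 6 ≤ M)
  (H : Subgroup (ZMod M)ˣ) (Ps : Set ℕ) (θ₀ : ℕ → O)
  (p : ℕ) [Fact p.Prime]
  (Δ₁ : Subgroup ((ZMod M)ˣ ⧸ H)) (χ : Δ₁ →* O)
  {N' : ℕ} [NeZero N'] (S : Finset ℕ) {Rl : List ℕ} {k : ℕ → ℕ}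
  (ρbar : ResidualGaloisRep (ResidueField O))
  (b : Module.Basis (Fin 2) (ResidueField O) ρbar.V) (Smin : Finset ℕ)
  [Module.IsTorsionFree O (IhmChiPart O M hM H Ps θ₀ Δ₁ χ)]
  (a : CuspForm.heckeAlgebra N' 2 (↑S : Set ℕ) →+* Module.End O (IhmChiPart O M hM H Ps θ₀ Δ₁ χ))
  (θ' : CuspForm.heckeAlgebra N' 2 (↑S : Set ℕ) →+* ResidueField O)
  (hpart : ihdPart O a θ' = ⊤) [Nontrivial ↥(ihdPart O a θ')]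
  (rA : GQ →* Matrix (Fin 2) (Fin 2) (IhdImg O a θ')) (hcts : MatCts (IhdImg O a θ') rA)
  (hD : KheDatum O M hM H Ps θ₀ p Δ₁ χ S (ihtcZ M Rl k) ρbar b Smin a θ' hpart rA hcts)
  (hpS : p ∈ S) (hNS : ∀ q : ℕ, q.Prime → q ∣ N' → q ∈ S)
  (hp2 : p ≠ 2) (hpO : (p : O) ∈ maximalIdeal O)
  (hyp : IhtcHyp M H Rl k) (hN' : N' = M * Rl.prod)
  {G : Type*} [CommGroup G] (ι : G →* (ZMod M)ˣ ⧸ H)
  (hc : ∀ δ : (ZMod M)ˣ ⧸ H, ∃ δ₁ : Δ₁, ∃ g : G, δ = (δ₁ : (ZMod M)ˣ ⧸ H) * ι g)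
  (hG : ∀ g : G, ∃ c : ℕ, g ^ (p ^ c) = 1)

include hD hpS hNS hp2 hpO hyp hN' hc hG in
/-- **the fields [TC]1,2 of `IhaHecke` at a C-prime `v`**, for the datum of `ihk_main_chi` -/
theorem khn_chi_TC
    {v : ℕ} (hvprime : v.Prime) (hv : v ∈ Rl) (hvp : v ≠ p) (hunr : ρbar.IsUnramifiedAt v)
    (Pl : ValuationSubring Qb) (hPl : Pl.LiesOverPrime v) {φ σ : GQ}
    (hφ : Pl.IsFrobeniusAt φ v) (hσ : IhgGen p Pl σ)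
    (a' u : ℕ) (hvau : v = 1 + p ^ a' * u) (hu : ¬ p ∣ u) (ha : 0 < a')
    (μ : Finset Oˣ)
    (hμ : (X ^ (p ^ a') - 1 : O[X]) = (X - 1) * ∏ ζ ∈ μ, (X - C (ζ : O)))
    (hγ : ∃ u : (ZMod v)ˣ, ∃ δ₁ : Δ₁,
      QuotientGroup.mk' H (ihtcY M k v u) = δ₁ ∧ χ δ₁ ≠ 1) :
    ∏ ζ ∈ μ, ((rA σ).trace - algebraMap O (IhdImg O a θ') ((ζ : O) + ((ζ⁻¹ : Oˣ) : O))) = 0 ∧
      rA φ * rA σ = rA σ * rA φ := by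
  have hD' := hD
  obtain ⟨h1, h2, h3, h4, h5, h6, h7, h8, h9, h10⟩ := hD'
  haveI : IsReduced (IhdImg O a θ') := ihdImg_isReduced θ' a hNS
  have hdet : (rA σ).det = 1 := (h10 v hvprime hvp Pl hPl).2 σ hσ.mem
  have hcomm : ∀ (t : IhdImg O a θ') (δ : (ZMod M)ˣ ⧸ H),
      Commute (ihiAct O a θ' hpart t) (ihmChiDia O M hM H Ps θ₀ Δ₁ χ δ) :=
    fun t δ => (h3 δ t).symm
  have hχ' : ∀ (δ : Δ₁) (x : IhmChiPart O M hM H Ps θ₀ Δ₁ χ),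
      ihmChiDia O M hM H Ps θ₀ Δ₁ χ δ x = χ δ • x :=
    fun δ x => ihmChiDia_of_mem O M hM H Ps θ₀ Δ₁ χ δ x
  have hfrobA : ∀ ℓ : ℕ, ℓ.Prime → ℓ ∉ S → ∀ Pl : ValuationSubring Qb, Pl.LiesOverPrime ℓ →
      ∀ φ : GQ, Pl.IsFrobeniusAt φ ℓ →
        (rA φ).trace = ihnTau O M hM H Ps θ₀ Δ₁ χ S a θ' ℓ ∧ (rA φ).det = (ℓ : IhdImg O a θ') :=
    fun ℓ hℓ hℓS Pl' hPl' φ' hφ' =>
      khn_chi_frob O M hM H Ps θ₀ p Δ₁ χ S (ihtcZ M Rl k) ρbar b Smin a θ' hpart rA hcts hD hpS hNS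
        ℓ hℓ hℓS Pl' hPl' φ' hφ'
  have hτ : ∀ ℓ : ℕ, ℓ.Prime → ℓ ∉ S →
      ihiAct O a θ' hpart (ihnTau O M hM H Ps θ₀ Δ₁ χ S a θ' ℓ) =
        (fun ℓ => ihmChiOp O M hM H Ps θ₀ Δ₁ χ ℓ *
          ihmChiDia O M hM H Ps θ₀ Δ₁ χ ((ihtcZ M Rl k ℓ : (ZMod M)ˣ) : (ZMod M)ˣ ⧸ H)) ℓ :=
    fun ℓ hℓ hℓS =>
      khn_chi_tau O M hM H Ps θ₀ p Δ₁ χ S (ihtcZ M Rl k) ρbar b Smin a θ' hpart rA hcts hD hNS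
        ℓ hℓ hℓS
  have hMN' : M ∣ N' := hN' ▸ Dvd.intro _ rfl
  have hPC : ∀ (P : AlpqPoint O (IhdImg O a θ'))
      (y : P.R ⊗[O] IhmChiPart O M hM H Ps θ₀ Δ₁ χ), y ≠ 0 →
      ∀ (lam : ℕ → P.R) (Ψ : (ZMod M)ˣ ⧸ H →* P.R),
      (∀ ℓ : ℕ, ℓ.Prime → ℓ ∉ S →
        ((fun ℓ => ihmChiOp O M hM H Ps θ₀ Δ₁ χ ℓ *
          ihmChiDia O M hM H Ps θ₀ Δ₁ χ ((ihtcZ M Rl k ℓ : (ZMod M)ˣ) : (ZMod M)ˣ ⧸ H)) ℓ).baseChange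
            P.R y = lam ℓ • y) →
      (∀ δ, (ihmChiDia O M hM H Ps θ₀ Δ₁ χ δ).baseChange P.R y = Ψ δ • y) →
      ∃ c : ↥(parabolicHoms P.R (ihfGammaH M H) P.R), c ≠ 0 ∧
        (∀ d : (ZMod M)ˣ, (ihfSysD M H d).homPar P.R P.R c = Ψ (QuotientGroup.mk' H d) • c) ∧
        (∀ ℓ : ℕ, ℓ.Prime → ¬ ℓ ∣ N' → ℓ ∉ S →
          ihtrOp H P.R P.R (ihtcZ M Rl k) ℓ c = lam ℓ • c) :=
    fun P y hy0 lam Ψ hyT hyD =>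
      ihn_chi_PC O M hM H Ps θ₀ Δ₁ χ S (ihtcZ M Rl k) hMN' P y hy0 lam Ψ hyT hyD
  exact ihn_fields_TC (O := O) (Mχ := IhmChiPart O M hM H Ps θ₀ Δ₁ χ) (A := IhdImg O a θ')
    (D := (ZMod M)ˣ ⧸ H) (G := G) p hp2 hpO h5 (ihiAct O a θ' hpart)
    (ihiAct_injective O a θ' hpart)
    (ihmChiDia O M hM H Ps θ₀ Δ₁ χ) hcomm Δ₁ χ hχ' ι hc hG ρbar b rA hcts h6 S
    (ihnTau O M hM H Ps θ₀ Δ₁ χ S a θ') hfrobA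
    (fun ℓ => ihmChiOp O M hM H Ps θ₀ Δ₁ χ ℓ *
      ihmChiDia O M hM H Ps θ₀ Δ₁ χ ((ihtcZ M Rl k ℓ : (ZMod M)ˣ) : (ZMod M)ˣ ⧸ H))
    hτ (QuotientGroup.mk' H) hyp hN' hpS hNS hPC
    hvprime hv hvp hunr Pl hPl hφ hσ hdet a' u hvau hu ha μ hμ hγ

include hD hpS hNS hpO hyp hN' hc hG in
/-- **the fields [AQ] and [WL] of `IhaHecke` at a Taylor–Wiles prime `q`**, for the datum of
`ihk_main_chi` (`γ` with `ι γ` = the image of the `q`-component generator) -/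
theorem khn_chi_AQ_WL
    {q : ℕ} (hq : q.Prime) (hqRl : q ∈ Rl) (hqp : q ≠ p) (hunr : ρbar.IsUnramifiedAt q)
    (hTW : IsTWPrime ρbar q)
    (Pl : ValuationSubring Qb) (hPl : Pl.LiesOverPrime q) {φ σ : GQ}
    (hφ : Pl.IsFrobeniusAt φ q) (hσ : IhgGen p Pl σ)
    (c u : ℕ) (hqcu : q = 1 + p ^ c * u) (hu : ¬ p ∣ u) (hc0 : 0 < c)
    (γ : G) (hγ : ∃ u : (ZMod q)ˣ, QuotientGroup.mk' H (ihtcY M k q u) = ι γ) :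
    ∃ (aq aq' : IhdImg O a θ') (e : Matrix (Fin 2) (Fin 2) (IhdImg O a θ')),
      (aq * aq' = 1 ∧ aq ^ (p ^ c) = 1 ∧ aq - 1 ∈ maximalIdeal (IhdImg O a θ') ∧
        e * e = e ∧ e.trace = 1 ∧ rA φ * e = e * rA φ ∧ aq = (e * rA σ).trace ∧
        rA σ = aq • e + aq' • (1 - e) ∧ (rA σ).trace = aq + aq' ∧ rA φ * rA σ = rA σ * rA φ) ∧
      ∀ v : IhmChiPart O M hM H Ps θ₀ Δ₁ χ,
        (∑ j ∈ Finset.range p, ((ihmChiDia O M hM H Ps θ₀ Δ₁ χ).comp ι) γ ^ j :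
          Module.End O (IhmChiPart O M hM H Ps θ₀ Δ₁ χ)) v = 0 →
        ihiAct O a θ' hpart aq v = v → v = 0 := by
  have hD' := hD
  obtain ⟨h1, h2, h3, h4, h5, h6, h7, h8, h9, h10⟩ := hD'
  have hdet : (rA σ).det = 1 := (h10 q hq hqp Pl hPl).2 σ hσ.mem
  have hA : ∃ k : ℕ, maximalIdeal (IhdImg O a θ') ^ k ≤
      (maximalIdeal O).map (algebraMap O (IhdImg O a θ')) := ihn_exists_pow_le_map
  have hcomm : ∀ (t : IhdImg O a θ') (δ : (ZMod M)ˣ ⧸ H),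
      Commute (ihiAct O a θ' hpart t) (ihmChiDia O M hM H Ps θ₀ Δ₁ χ δ) :=
    fun t δ => (h3 δ t).symm
  have hχ' : ∀ (δ : Δ₁) (x : IhmChiPart O M hM H Ps θ₀ Δ₁ χ),
      ihmChiDia O M hM H Ps θ₀ Δ₁ χ δ x = χ δ • x :=
    fun δ x => ihmChiDia_of_mem O M hM H Ps θ₀ Δ₁ χ δ x
  have hfrobA : ∀ ℓ : ℕ, ℓ.Prime → ℓ ∉ S → ∀ Pl : ValuationSubring Qb, Pl.LiesOverPrime ℓ →
      ∀ φ : GQ, Pl.IsFrobeniusAt φ ℓ →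
        (rA φ).trace = ihnTau O M hM H Ps θ₀ Δ₁ χ S a θ' ℓ ∧ (rA φ).det = (ℓ : IhdImg O a θ') :=
    fun ℓ hℓ hℓS Pl' hPl' φ' hφ' =>
      khn_chi_frob O M hM H Ps θ₀ p Δ₁ χ S (ihtcZ M Rl k) ρbar b Smin a θ' hpart rA hcts hD hpS hNS
        ℓ hℓ hℓS Pl' hPl' φ' hφ'
  have hτ : ∀ ℓ : ℕ, ℓ.Prime → ℓ ∉ S →
      ihiAct O a θ' hpart (ihnTau O M hM H Ps θ₀ Δ₁ χ S a θ' ℓ) =
        (fun ℓ => ihmChiOp O M hM H Ps θ₀ Δ₁ χ ℓ *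
          ihmChiDia O M hM H Ps θ₀ Δ₁ χ ((ihtcZ M Rl k ℓ : (ZMod M)ˣ) : (ZMod M)ˣ ⧸ H)) ℓ :=
    fun ℓ hℓ hℓS =>
      khn_chi_tau O M hM H Ps θ₀ p Δ₁ χ S (ihtcZ M Rl k) ρbar b Smin a θ' hpart rA hcts hD hNS
        ℓ hℓ hℓS
  have hMN' : M ∣ N' := hN' ▸ Dvd.intro _ rfl
  have hPC : ∀ (P : AlpqPoint O (IhdImg O a θ'))
      (y : P.R ⊗[O] IhmChiPart O M hM H Ps θ₀ Δ₁ χ), y ≠ 0 →
      ∀ (lam : ℕ → P.R) (Ψ : (ZMod M)ˣ ⧸ H →* P.R),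
      (∀ ℓ : ℕ, ℓ.Prime → ℓ ∉ S →
        ((fun ℓ => ihmChiOp O M hM H Ps θ₀ Δ₁ χ ℓ *
          ihmChiDia O M hM H Ps θ₀ Δ₁ χ ((ihtcZ M Rl k ℓ : (ZMod M)ˣ) : (ZMod M)ˣ ⧸ H)) ℓ).baseChange
            P.R y = lam ℓ • y) →
      (∀ δ, (ihmChiDia O M hM H Ps θ₀ Δ₁ χ δ).baseChange P.R y = Ψ δ • y) →
      ∃ c : ↥(parabolicHoms P.R (ihfGammaH M H) P.R), c ≠ 0 ∧
        (∀ d : (ZMod M)ˣ, (ihfSysD M H d).homPar P.R P.R c = Ψ (QuotientGroup.mk' H d) • c) ∧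
        (∀ ℓ : ℕ, ℓ.Prime → ¬ ℓ ∣ N' → ℓ ∉ S →
          ihtrOp H P.R P.R (ihtcZ M Rl k) ℓ c = lam ℓ • c) :=
    fun P y hy0 lam Ψ hyT hyD =>
      ihn_chi_PC O M hM H Ps θ₀ Δ₁ χ S (ihtcZ M Rl k) hMN' P y hy0 lam Ψ hyT hyD
  exact ihn_fields_AQ_WL (O := O) (Mχ := IhmChiPart O M hM H Ps θ₀ Δ₁ χ) (A := IhdImg O a θ')
    (D := (ZMod M)ˣ ⧸ H) (G := G) p hpO h5 hA (ihiAct O a θ' hpart)
    (ihmChiDia O M hM H Ps θ₀ Δ₁ χ) hcomm Δ₁ χ hχ' ι hc hG ρbar b rA hcts h6 S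
    (ihnTau O M hM H Ps θ₀ Δ₁ χ S a θ') hfrobA
    (fun ℓ => ihmChiOp O M hM H Ps θ₀ Δ₁ χ ℓ *
      ihmChiDia O M hM H Ps θ₀ Δ₁ χ ((ihtcZ M Rl k ℓ : (ZMod M)ˣ) : (ZMod M)ˣ ⧸ H))
    hτ (QuotientGroup.mk' H) hyp hN' hpS hNS hPC
    hq hqRl hqp hunr hTW Pl hPl hφ hσ hdet c u hqcu hu hc0 γ hγ

end Blocks

end Fermat.Agent.Ihara
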